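import Mathlib
import Fermat.Agent.MUL.Lib.Torsion.Card

set_option autoImplicit false

/-!
# S30 p-adic core, part 2: saturated submodules and primitive vectors

`R` a domain, `Λ` a torsion-free `R`-module.  `satSub N` is the saturation of `N` in `Λ`.
Over a discrete valuation ring every nonzero vector of a finite module is a multiple of a
primitive vector, and the line through a primitive vector is saturated.
-/

namespace Fermat.Agent.S30

open Module

section Sat

variable {R : Type*} [CommRing R] [IsDomain R] {Λ : Type*} [AddCommGroup Λ] [Module R Λ]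

/-- `N` is saturated in `Λ`. -/
def IsSatSub (N : Submodule R Λ) : Prop :=
  ∀ (r : R) (x : Λ), r ≠ 0 → r • x ∈ N → x ∈ N

/-- The saturation of a submodule. -/
def satSub (N : Submodule R Λ) : Submodule R Λ where
  carrier := {x | ∃ r : R, r ≠ 0 ∧ r • x ∈ N}
  zero_mem' := ⟨1, one_ne_zero, by rw [smul_zero]; exact N.zero_mem⟩
  add_mem' := by
    rintro x y ⟨r, hr, hx⟩ ⟨s, hs, hy⟩
    refine ⟨r * s, mul_ne_zero hr hs, ?_⟩
    rw [smul_add]
    refine N.add_mem ?_ ?_
    · rw [mul_comm, mul_smul]; exact N.smul_mem s hx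
    · rw [mul_smul]; exact N.smul_mem r hy
  smul_mem' := by
    rintro a x ⟨r, hr, hx⟩
    exact ⟨r, hr, by rw [smul_comm]; exact N.smul_mem a hx⟩

theorem mem_satSub {N : Submodule R Λ} {x : Λ} :
    x ∈ satSub N ↔ ∃ r : R, r ≠ 0 ∧ r • x ∈ N := Iff.rfl

theorem le_satSub (N : Submodule R Λ) : N ≤ satSub N := fun x hx =>
  ⟨1, one_ne_zero, by rwa [one_smul]⟩

theorem isSatSub_satSub (N : Submodule R Λ) : IsSatSub (satSub N) := by
  rintro r x hr ⟨s, hs, hx⟩
  exact ⟨s * r, mul_ne_zero hs hr, by rwa [mul_smul]⟩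

theorem satSub_le {N M : Submodule R Λ} (h : N ≤ M) (hM : IsSatSub M) : satSub N ≤ M := by
  rintro x ⟨r, hr, hx⟩
  exact hM r x hr (h hx)

theorem satSub_mono {N M : Submodule R Λ} (h : N ≤ M) : satSub N ≤ satSub M :=
  satSub_le (h.trans (le_satSub M)) (isSatSub_satSub M)

/-- A linear map preserving `N` preserves its saturation. -/
theorem map_mem_satSub {N : Submodule R Λ} (f : Λ →ₗ[R] Λ) (hf : ∀ x ∈ N, f x ∈ N)
    {x : Λ} (hx : x ∈ satSub N) : f x ∈ satSub N := by
  obtain ⟨r, hr, hx⟩ := hx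
  exact ⟨r, hr, by rw [← map_smul]; exact hf _ hx⟩

/-- A primitive vector: it is not a proper multiple. -/
def IsPrimVec (R : Type*) [CommRing R] {Λ : Type*} [AddCommGroup Λ] [Module R Λ] (u : Λ) :
    Prop :=
  ∀ (r : R) (y : Λ), r • y = u → IsUnit r

variable [Module.IsTorsionFree R Λ]

omit [Module.IsTorsionFree R Λ] in
theorem IsPrimVec.ne_zero [Nontrivial Λ] {u : Λ} (hu : IsPrimVec R u) : u ≠ 0 := by
  intro h
  have := hu 0 0 (by rw [h, smul_zero])
  exact not_isUnit_zero this

/-- Over a valuation ring, the line through a primitive vector is saturated. -/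
theorem IsPrimVec.mem_span_of_smul_mem [ValuationRing R] {u : Λ} (hu : IsPrimVec R u)
    {r : R} (hr : r ≠ 0) {x : Λ} (hx : r • x ∈ Submodule.span R {u}) :
    x ∈ Submodule.span R {u} := by
  obtain ⟨a, ha⟩ := Submodule.mem_span_singleton.mp hx
  rcases ValuationRing.dvd_total r a with ⟨b, hb⟩ | ⟨b, hb⟩
  · -- a = r * b
    have h1 : r • (x - b • u) = 0 := by
      rw [smul_sub, ← ha, hb, mul_smul]
      exact sub_self _
    rcases smul_eq_zero.mp h1 with h | h
    · exact absurd h hr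
    · rw [sub_eq_zero] at h
      rw [h]
      exact Submodule.smul_mem _ _ (Submodule.mem_span_singleton_self u)
  · -- r = a * b
    have ha0 : a ≠ 0 := by
      rintro rfl
      rw [zero_mul] at hb
      exact hr hb
    have h1 : a • (b • x - u) = 0 := by
      rw [smul_sub, ha, ← mul_smul, ← hb]
      exact sub_self _
    rcases smul_eq_zero.mp h1 with h | h
    · exact absurd h ha0
    · rw [sub_eq_zero] at h
      have hb' : IsUnit b := hu b x h
      obtain ⟨b', rfl⟩ := hb'
      have : x = ((b'⁻¹ : Rˣ) : R) • u := by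
        rw [← h, ← mul_smul, Units.inv_mul, one_smul]
      rw [this]
      exact Submodule.smul_mem _ _ (Submodule.mem_span_singleton_self u)

theorem IsPrimVec.isSatSub_span [ValuationRing R] {u : Λ} (hu : IsPrimVec R u) :
    IsSatSub (Submodule.span R {u}) :=
  fun _ _ hr hx => hu.mem_span_of_smul_mem hr hx

theorem IsPrimVec.satSub_span [ValuationRing R] {u : Λ} (hu : IsPrimVec R u) :
    satSub (Submodule.span R {u}) = Submodule.span R {u} :=
  le_antisymm (satSub_le le_rfl hu.isSatSub_span) (le_satSub _)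

end Sat

section DVR

variable {R : Type*} [CommRing R] [IsDomain R] [IsDiscreteValuationRing R]
  {Λ : Type*} [AddCommGroup Λ] [Module R Λ] [Module.Finite R Λ]

open IsLocalRing

omit [Module.Finite R Λ] in
/-- `𝔪 ^ n • ⊤ = ϖ ^ n • Λ`. -/
theorem mem_maximalIdeal_pow_smul_top {ϖ : R} (hϖ : Irreducible ϖ) (n : ℕ) (x : Λ) :
    x ∈ (maximalIdeal R ^ n) • (⊤ : Submodule R Λ) ↔ ∃ y : Λ, x = ϖ ^ n • y := by
  rw [hϖ.maximalIdeal_eq, Ideal.span_singleton_pow, Submodule.ideal_span_singleton_smul,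
    Submodule.mem_smul_pointwise_iff_exists]
  constructor
  · rintro ⟨y, -, rfl⟩
    exact ⟨y, rfl⟩
  · rintro ⟨y, rfl⟩
    exact ⟨y, Submodule.mem_top, rfl⟩

/-- Every nonzero vector is a nonzero multiple of a primitive vector. -/
theorem exists_primVec_of_ne_zero [Module.IsTorsionFree R Λ] {x : Λ} (hx : x ≠ 0) :
    ∃ (r : R) (u : Λ), r ≠ 0 ∧ x = r • u ∧ IsPrimVec R u := by
  classical
  obtain ⟨ϖ, hϖ⟩ := IsDiscreteValuationRing.exists_irreducible R
  have hK : (⨅ i : ℕ, (maximalIdeal R ^ i) • (⊤ : Submodule R Λ)) = ⊥ :=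
    Ideal.iInf_pow_smul_eq_bot_of_isLocalRing (maximalIdeal R) (Ideal.IsPrime.ne_top inferInstance)
  have hex : ∃ n : ℕ, x ∉ (maximalIdeal R ^ n) • (⊤ : Submodule R Λ) := by
    by_contra hcon
    simp only [not_exists, not_not] at hcon
    have : x ∈ (⨅ i : ℕ, (maximalIdeal R ^ i) • (⊤ : Submodule R Λ)) := by
      rw [Submodule.mem_iInf]
      exact hcon
    rw [hK] at this
    exact hx ((Submodule.mem_bot R).mp this)
  let n := Nat.find hex
  have hn : x ∉ (maximalIdeal R ^ n) • (⊤ : Submodule R Λ) := Nat.find_spec hex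
  have hn0 : n ≠ 0 := by
    intro h0
    apply hn
    rw [h0, pow_zero, Ideal.one_eq_top, Submodule.top_smul]
    exact Submodule.mem_top
  obtain ⟨m, hm⟩ := Nat.exists_eq_succ_of_ne_zero hn0
  have hm' : x ∈ (maximalIdeal R ^ m) • (⊤ : Submodule R Λ) := by
    by_contra hcon
    have := Nat.find_min' hex hcon
    omega
  obtain ⟨u, hu⟩ := (mem_maximalIdeal_pow_smul_top hϖ m x).mp hm'
  refine ⟨ϖ ^ m, u, pow_ne_zero _ hϖ.ne_zero, hu, ?_⟩
  intro r y hry
  by_contra hr
  have hrm : r ∈ maximalIdeal R := (IsLocalRing.mem_maximalIdeal r).mpr hr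
  rw [hϖ.maximalIdeal_eq, Ideal.mem_span_singleton] at hrm
  obtain ⟨r', rfl⟩ := hrm
  apply hn
  rw [mem_maximalIdeal_pow_smul_top hϖ]
  refine ⟨r' • y, ?_⟩
  rw [hu, ← hry, hm, pow_succ, mul_smul, mul_smul]

end DVR

end Fermat.Agent.S30
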